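import Mathlib
import Fermat.Agent.Root.SummaryChebotarev

/-!
# Elements with independent conjugates modulo `n`-th powers

In a Galois number field we pick, for every index, an element of valuation one at its own totally
split prime, a unit at all the others and at all the conjugates of all of them.
-/

namespace Fermat.Agent.SemidirectGalois

open NumberField IsDedekindDomain WithZero
open scoped Pointwise

variable {F : Type} [Field F] [NumberField F] [IsGalois ℚ F]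

omit [IsGalois ℚ F] in
/-- The decomposition group is trivial when the Frobenius element is trivial and unramified. -/
lemma eq_one_of_smul_eq {q : ℕ} (hq : q.Prime) {Q : Ideal (𝓞 F)} (hQ : Q.IsMaximal)
    (hqQ : (q : 𝓞 F) ∈ Q) (hin : Q.inertia (F ≃ₐ[ℚ] F) = ⊥)
    (hfrob : IsArithFrobAt ℤ (1 : F ≃ₐ[ℚ] F) Q) {τ : F ≃ₐ[ℚ] F} (hτ : τ • Q = Q) : τ = 1 := by
  have : Fact q.Prime := ⟨hq⟩
  refine (Subgroup.eq_bot_iff_forall _).1 hin τ fun y => ?_
  let _ : Field (𝓞 F ⧸ Q) := Ideal.Quotient.field Q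
  have : CharP (𝓞 F ⧸ Q) q := (CharP.charP_iff_prime_eq_zero hq).2 (by
    rw [← map_natCast (Ideal.Quotient.mk Q), Ideal.Quotient.eq_zero_iff_mem]
    exact hqQ)
  have hy : Ideal.Quotient.mk Q y ^ q = Ideal.Quotient.mk Q y := by
    have h1 := hfrob y
    rw [FA.FrobeniusDensity.card_quotient_under hq hQ.ne_top hqQ] at h1
    rw [← map_pow, eq_comm, Ideal.Quotient.eq]
    simpa using h1
  rw [← Subfield.mem_bot_iff_pow_eq_self (𝓞 F ⧸ Q) q, ← ZMod.fieldRange_castHom_eq_bot q,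
    RingHom.mem_fieldRange] at hy
  obtain ⟨m, hm⟩ := hy
  rw [ZMod.castHom_apply, ZMod.cast_eq_val, ← map_natCast (Ideal.Quotient.mk Q),
    Ideal.Quotient.eq] at hm
  have h2 := Ideal.smul_mem_pointwise_smul τ _ _ hm
  rw [hτ, smul_sub, show τ • (m.val : 𝓞 F) = m.val from
    map_natCast (MulSemiringAction.toRingHom (F ≃ₐ[ℚ] F) (𝓞 F) τ) m.val] at h2
  show τ • y - y ∈ Q
  have h3 := Q.sub_mem hm h2
  rwa [show (m.val : 𝓞 F) - y - ((m.val : 𝓞 F) - τ • y) = τ • y - y by ring] at h3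

omit [NumberField F] [IsGalois ℚ F] in
/-- A maximal ideal contains one prime number only. -/
lemma prime_unique {p q : ℕ} (hp : p.Prime) (hq : q.Prime) {Q : Ideal (𝓞 F)} (hQ : Q.IsMaximal)
    (hpQ : (p : 𝓞 F) ∈ Q) (hqQ : (q : 𝓞 F) ∈ Q) : p = q := by
  have h1 := FA.FrobeniusDensity.card_quotient_under hp hQ.ne_top hpQ
  rw [FA.FrobeniusDensity.card_quotient_under hq hQ.ne_top hqQ] at h1
  exact h1.symm

open scoped Classical in
/-- Elements whose conjugates are independent modulo powers. -/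
theorem exists_independent_int (J : Type) [Finite J] :
    ∃ (v : J → HeightOneSpectrum (𝓞 F)) (b : J → 𝓞 F), ∀ i j, ∀ τ : F ≃ₐ[ℚ] F,
      (v i).intValuation (τ • b j) = if τ = 1 ∧ j = i then exp (-1 : ℤ) else 1 := by
  classical
  cases nonempty_fintype J
  have hinf := (FA.Summary.chebotarev_infinite F 1)
  obtain ⟨S, hS, hScard⟩ := hinf.exists_subset_card_eq (Fintype.card J)
  let q : J → ℕ := fun j => (S.equivFinOfCardEq hScard).symm ((Fintype.equivFin J) j)
  have hqinj : Function.Injective q :=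
    Subtype.val_injective.comp ((Equiv.injective _).comp (Equiv.injective _))
  have hq : ∀ j, q j ∈ S := fun j => Finset.coe_mem _
  choose hprime Q hQ hqQ hin hfrob using fun j => hS (hq j)
  have hQ0 : ∀ j, Q j ≠ ⊥ := fun j h => by
    have := hqQ j
    rw [h, Ideal.mem_bot] at this
    exact (hprime j).ne_zero (Nat.cast_eq_zero.1 this)
  have hmax : ∀ (τ : F ≃ₐ[ℚ] F) (j : J), (τ • Q j).IsMaximal := fun τ j => by
    have := hQ j
    rw [Ideal.pointwise_smul_eq_comap]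
    exact Ideal.comap_isMaximal_of_surjective _
      (MulSemiringAction.toRingEquiv (F ≃ₐ[ℚ] F) (𝓞 F) τ⁻¹).surjective
  have hdist : ∀ z ∈ (Finset.univ : Finset ((F ≃ₐ[ℚ] F) × J)), ∀ z' ∈ Finset.univ, z ≠ z' →
      z.1 • Q z.2 ≠ z'.1 • Q z'.2 := by
    rintro ⟨τ, i⟩ - ⟨τ', j⟩ - hne (h : τ • Q i = τ' • Q j)
    have hcast : ∀ (σ : F ≃ₐ[ℚ] F) (k : J), (q k : 𝓞 F) ∈ σ • Q k := fun σ k => by
      rw [Ideal.mem_pointwise_smul_iff_inv_smul_mem, show σ⁻¹ • (q k : 𝓞 F) = q k from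
        map_natCast (MulSemiringAction.toRingHom (F ≃ₐ[ℚ] F) (𝓞 F) σ⁻¹) (q k)]
      exact hqQ k
    obtain rfl : i = j := hqinj
      (prime_unique (hprime i) (hprime j) (hmax τ i) (hcast τ i) (h ▸ hcast τ' j))
    refine hne (Prod.ext (inv_mul_eq_one.1 ?_).symm rfl)
    exact eq_one_of_smul_eq (hprime i) (hQ i) (hqQ i) (hin i) (hfrob i)
      (τ := τ'⁻¹ * τ) (by rw [mul_smul, inv_smul_eq_iff]; exact h)
  have hπ : ∀ j, ∃ π ∈ Q j, π ∉ Q j ^ 2 := fun j =>
    SetLike.exists_of_lt (Ideal.pow_lt_self (Q j) (hQ0 j) (hQ j).ne_top 2 le_rfl)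
  choose π hπ hπ' using hπ
  have hex : ∀ j, ∃ b, ∀ (z : (F ≃ₐ[ℚ] F) × J) (_ : z ∈ Finset.univ),
      b - (if z = (1, j) then π j else 1) ∈ (z.1 • Q z.2) ^ (if z = (1, j) then 2 else 1) := by
    intro j
    exact exists_forall_sub_mem_ideal
      (fun z : (F ≃ₐ[ℚ] F) × J => z.1 • Q z.2) (fun z => if z = (1, j) then 2 else 1)
      (fun z _ => Ideal.prime_of_isPrime (fun h => hQ0 z.2 (by
        rw [← inv_smul_smul z.1 (Q z.2), h]
        exact Ideal.smul_bot z.1⁻¹)) (hmax z.1 z.2).isPrime) hdist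
      (fun z => if (z : (F ≃ₐ[ℚ] F) × J) = (1, j) then π j else 1)
  choose b hb using hex
  refine ⟨fun i => ⟨Q i, (hQ i).isPrime, hQ0 i⟩, b, fun i j τ => ?_⟩
  set v : HeightOneSpectrum (𝓞 F) := ⟨Q i, (hQ i).isPrime, hQ0 i⟩
  split_ifs with h
  · obtain ⟨rfl, rfl⟩ := h
    rw [one_smul]
    have h1 : b j - π j ∈ Q j ^ 2 := by simpa using hb j (1, j) (Finset.mem_univ _)
    have hbQ : b j ∈ Q j ^ 1 := by
      rw [pow_one]
      have := (Q j).add_mem (Ideal.pow_le_self two_ne_zero h1) (hπ j)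
      rwa [sub_add_cancel] at this
    have hle := (v.intValuation_le_pow_iff_mem (b j) 1).2 hbQ
    have h2 : ¬ v.intValuation (b j) ≤ exp (-2 : ℤ) := fun h => hπ' j (by
      have := (Q j ^ 2).sub_mem ((v.intValuation_le_pow_iff_mem (b j) 2).1 (by simpa using h)) h1
      rwa [sub_sub_cancel] at this)
    have h0 : v.intValuation (b j) ≠ 0 := fun h => h2 (h ▸ zero_le)
    rw [← exp_log h0] at hle h2 ⊢
    rw [exp_le_exp] at hle h2
    congr 1
    omega
  · refine v.intValuation_eq_one_iff.2 fun hmem => ?_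
    have hne : ((τ⁻¹, i) : (F ≃ₐ[ℚ] F) × J) ≠ (1, j) := fun e =>
      h ⟨inv_eq_one.1 (congrArg Prod.fst e), (congrArg Prod.snd e).symm⟩
    have h1 := hb j (τ⁻¹, i) (Finset.mem_univ _)
    simp only [if_neg hne, pow_one] at h1
    have h2 : b j ∈ τ⁻¹ • Q i := by rwa [Ideal.mem_pointwise_smul_iff_inv_smul_mem, inv_inv]
    refine (hmax τ⁻¹ i).ne_top ((Ideal.eq_top_iff_one _).2 ?_)
    have := (τ⁻¹ • Q i).sub_mem h2 h1
    rwa [sub_sub_cancel] at this

/-- The field-level form. -/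
theorem exists_independent (K : Type) [Field K] [CharZero K] [alg : Algebra ℚ K]
    [FiniteDimensional ℚ K] [IsGalois ℚ K] (J : Type) [Fintype J] :
    ∃ b : J → K, (∀ j, b j ≠ 0) ∧ ∀ (n : ℕ) (e : (K ≃ₐ[ℚ] K) → J → ℕ) (y : K),
      ∏ τ : K ≃ₐ[ℚ] K, ∏ j, τ (b j) ^ e τ j = y ^ n → ∀ τ j, n ∣ e τ j := by
  classical
  obtain rfl : alg = DivisionRing.toRatAlgebra := Subsingleton.elim _ _
  have : NumberField K := { }
  obtain ⟨v, b, hb⟩ := exists_independent_int (F := K) J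
  have hb0 : ∀ j, (b j : K) ≠ 0 := fun j h => by
    have h1 := hb j j 1
    rw [one_smul, show b j = 0 from RingOfIntegers.ext h, map_zero, if_pos ⟨rfl, rfl⟩] at h1
    exact exp_ne_zero h1.symm
  refine ⟨fun j => b j, hb0, fun n e y h σ i => ?_⟩
  have hval : ∀ (τ : K ≃ₐ[ℚ] K) (j : J), (v i).valuation K (τ (b j : K))
      = if τ = 1 ∧ j = i then exp (-1 : ℤ) else 1 := fun τ j => by
    rw [← hb i j τ, ← (v i).valuation_of_algebraMap (K := K)]
    rfl
  have h1 := congrArg (fun z => (v i).valuation K (σ⁻¹ z)) h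
  simp only [map_prod, map_pow, ← AlgEquiv.mul_apply, hval] at h1
  rw [Finset.prod_eq_single σ (fun τ _ hτ => Finset.prod_eq_one fun j _ => by
      rw [if_neg fun hc => hτ (inv_mul_eq_one.1 hc.1).symm, one_pow])
      (fun h => absurd (Finset.mem_univ σ) h),
    Finset.prod_eq_single i (fun j _ hj => by rw [if_neg fun hc => hj hc.2, one_pow])
      (fun h => absurd (Finset.mem_univ i) h),
    if_pos ⟨inv_mul_cancel σ, rfl⟩] at h1
  have h2 := congrArg log h1
  simp only [log_pow, log_exp, nsmul_eq_mul] at h2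
  have h3 : (n : ℤ) ∣ (e σ i : ℤ) :=
    ⟨-log ((v i).valuation K (σ⁻¹ y)), by linarith⟩
  exact Int.natCast_dvd_natCast.1 h3

end Fermat.Agent.SemidirectGalois
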