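import Mathlib
import Fermat.Agent.SemidirectGalois.Independent
import Fermat.Agent.Local.Minkowski
import Fermat.Agent.Root.SummaryAbelianInverseGalois

/-!
# Split embedding problems with abelian kernel

Over a field `F ⊇ μ_n` radicals of the conjugates `τ b_a` of independent elements give a cocycle:
`σ` sends the radical at `τ` to the one at `στ` times a root of unity, which divided by the
cyclotomic character at `στ` has values in the trivial module `ZMod n`.
-/

namespace Fermat.Agent.SemidirectGalois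

local notation "Qb" => AlgebraicClosure ℚ
local notation "GQ" => AlgebraicClosure ℚ ≃ₐ[ℚ] AlgebraicClosure ℚ

/-- Powers with exponent in `ZMod n` add, for an element killed by `n`. -/
lemma pow_val_add {M : Type*} [Monoid M] {n : ℕ} [NeZero n] {a : M} (ha : a ^ n = 1)
    (x y : ZMod n) : a ^ (x + y).val = a ^ x.val * a ^ y.val := by
  rw [← pow_add, ZMod.val_add, pow_eq_pow_mod (x.val + y.val) ha]

/-- Powers with exponent in `ZMod n` multiply. -/
lemma pow_val_mul {M : Type*} [Monoid M] {n : ℕ} [NeZero n] {a : M} (ha : a ^ n = 1)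
    (x y : ZMod n) : a ^ (x * y).val = (a ^ x.val) ^ y.val := by
  rw [← pow_mul, ZMod.val_mul, pow_eq_pow_mod (x.val * y.val) ha]

/-- The embedding problem over a field containing the `n`-th roots of unity. -/
theorem exists_embedding_of_roots {F : IntermediateField ℚ Qb} [FiniteDimensional ℚ F]
    [IsGalois ℚ F] {n : ℕ} [NeZero n] {ζ : F} (hζ : IsPrimitiveRoot ζ n)
    {A G : Type*} [CommGroup A] [Finite A] [Group G] (hA : ∀ a : A, a ^ n = 1)
    (φ : G →* MulAut A) (π : (F ≃ₐ[ℚ] F) →* G) (hπ : Function.Surjective π) :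
    ∃ Ψ : GQ →* A ⋊[φ] G, Function.Surjective Ψ ∧ IsOpen (Ψ.ker : Set GQ) ∧
      ∀ σ : GQ, (Ψ σ).right = π (AlgEquiv.restrictNormalHom F σ) := by
  classical
  have : IsGalois ℚ Qb := FA.Local.isGalois_qbar
  obtain ⟨el, hel⟩ : ∃ el : Fin (Nat.card A) → A, Function.Surjective el :=
    ⟨_, (Finite.equivFin A).symm.surjective⟩
  obtain ⟨b, hb0, hind⟩ := exists_independent F (Fin (Nat.card A))
  set I := (F ≃ₐ[ℚ] F) × Fin (Nat.card A)
  have hζQ : IsPrimitiveRoot (ζ : Qb) n := hζ.map_of_injective (f := F.val) Subtype.val_injective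
  let ε : ZMod n → Qb := fun z => (ζ : Qb) ^ z.val
  have hε_add : ∀ x y, ε (x + y) = ε x * ε y := pow_val_add hζQ.pow_eq_one
  have hε_mul : ∀ x y, ε (x * y) = ε x ^ y.val := pow_val_mul hζQ.pow_eq_one
  have hε_inj : ∀ x y, ε x = ε y → x = y := fun x y h =>
    ZMod.val_injective n (hζQ.pow_inj (ZMod.val_lt x) (ZMod.val_lt y) h)
  have hε_one : ε 0 = 1 := by simp [ε]
  let res : GQ →* (F ≃ₐ[ℚ] F) := AlgEquiv.restrictNormalHom F
  have hres : ∀ (σ : GQ) (x : F), ((res σ x : F) : Qb) = σ (x : Qb) := fun σ x =>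
    AlgEquiv.restrictNormal_commutes σ F x
  let ω : (F ≃ₐ[ℚ] F) →* (ZMod n)ˣ := hζ.autToPow ℚ
  have hεω : ∀ (σ : GQ) (x : ZMod n), σ (ε x) = ε ((ω (res σ) : ZMod n) * x) := fun σ x => by
    rw [hε_mul]
    show σ ((ζ : Qb) ^ x.val) = _
    rw [map_pow, ← hres, ← hζ.autToPow_spec ℚ (res σ), IntermediateField.coe_pow]
  -- the radicals
  have hex : ∀ i : I, ∃ r : Qb, r ^ n = (i.1 (b i.2) : F) := fun i =>
    IsAlgClosed.exists_pow_nat_eq _ (NeZero.pos n)
  choose r hr using hex
  have hr0 : ∀ i, r i ≠ 0 := fun i h => hb0 i.2 ((map_eq_zero i.1).1 (Subtype.ext (by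
    rw [← hr i, h, zero_pow (NeZero.ne n)]; rfl)))
  have hz : ∀ (σ : GQ) (i : I), ∃ z : ZMod n, σ (r i) = r (res σ * i.1, i.2) * ε z := by
    intro σ i
    obtain ⟨k, hk, hk'⟩ := hζQ.eq_pow_of_pow_eq_one (ξ := σ (r i) / r (res σ * i.1, i.2)) (by
      rw [div_pow, ← map_pow, hr, hr, ← hres, ← AlgEquiv.mul_apply]
      exact div_self fun h => hb0 i.2 ((map_eq_zero _).1 (Subtype.ext h)))
    refine ⟨(k : ZMod n), ?_⟩
    show σ (r i) = _ * (ζ : Qb) ^ (k : ZMod n).val
    rw [ZMod.val_natCast, Nat.mod_eq_of_lt hk, hk', mul_div_cancel₀ _ (hr0 _)]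
  choose z hzspec using hz
  let v : GQ → I → ZMod n := fun σ i =>
    z σ ((res σ)⁻¹ * i.1, i.2) * ((ω i.1)⁻¹ : (ZMod n)ˣ)
  have hzmul : ∀ σ τ i, z (σ * τ) i
      = z σ (res τ * i.1, i.2) + (ω (res σ) : ZMod n) * z τ i := by
    intro σ τ i
    refine hε_inj _ _ ?_
    have h := hzspec (σ * τ) i
    rw [AlgEquiv.mul_apply, hzspec τ i, map_mul, hzspec σ, hεω, mul_assoc, ← hε_add, map_mul res,
      mul_assoc] at h
    exact (mul_left_cancel₀ (hr0 _) h).symm
  have hvmul : ∀ σ τ i, v (σ * τ) i = v σ i + v τ ((res σ)⁻¹ * i.1, i.2) := by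
    intro σ τ i
    simp only [v, hzmul, map_mul, map_inv, mul_inv_rev, inv_inv, mul_assoc, mul_inv_cancel_left,
      Units.val_mul]
    ring
  let c : I → A := fun i => φ (π i.1) (el i.2)
  let V : GQ → A := fun σ => ∏ i, c i ^ (v σ i).val
  have hVmul : ∀ σ τ, V (σ * τ) = V σ * φ (π (res σ)) (V τ) := by
    intro σ τ
    show ∏ i, c i ^ (v (σ * τ) i).val = _
    rw [Finset.prod_congr rfl fun i _ => by rw [hvmul, pow_val_add (hA _)], Finset.prod_mul_distrib,
      map_prod]
    refine congrArg (V σ * ·) (Fintype.prod_equiv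
      ((Equiv.mulLeft (res σ)⁻¹).prodCongr (Equiv.refl _)) _ _ fun i => ?_)
    show c i ^ (v τ ((res σ)⁻¹ * i.1, i.2)).val
      = φ (π (res σ)) (c ((res σ)⁻¹ * i.1, i.2) ^ (v τ ((res σ)⁻¹ * i.1, i.2)).val)
    rw [map_pow]
    congr 1
    show φ (π i.1) (el i.2) = φ (π (res σ)) (φ (π ((res σ)⁻¹ * i.1)) (el i.2))
    rw [← MulAut.mul_apply, ← map_mul, ← map_mul, mul_inv_cancel_left]
  let Ψ : GQ →* A ⋊[φ] G := MonoidHom.mk' (fun σ => ⟨V σ, π (res σ)⟩) fun σ τ =>
    SemidirectProduct.ext (hVmul σ τ) (by simp)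
  refine ⟨Ψ, ?_, ?_, fun σ => rfl⟩
  · -- surjectivity
    have hU : Ψ.range.comap SemidirectProduct.inl = ⊤ := by
      set U := Ψ.range.comap SemidirectProduct.inl
      by_contra hne
      obtain ⟨a, ha⟩ : ∃ a : A, a ∉ U := by
        by_contra h
        push Not at h
        exact hne (eq_top_iff.2 fun x _ => h x)
      obtain ⟨χ₀, hχ₀⟩ := CommGroup.exists_apply_ne_one_of_hasEnoughRootsOfUnity (A ⧸ U) Qb
        (a := (a : A ⧸ U)) (by rwa [Ne, QuotientGroup.eq_one_iff])
      let χ : A →* Qb := (Units.coeHom Qb).comp (χ₀.comp (QuotientGroup.mk' U))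
      have hl : ∀ i, ∃ l : ZMod n, χ (c i) = ε l := fun i => by
        obtain ⟨k, hk, hk'⟩ := hζQ.eq_pow_of_pow_eq_one (ξ := χ (c i))
          (by rw [← map_pow, hA, map_one])
        exact ⟨(k : ZMod n), by
          show _ = (ζ : Qb) ^ (k : ZMod n).val
          rw [ZMod.val_natCast, Nat.mod_eq_of_lt hk, hk']⟩
      choose l hl using hl
      let μ : I → ℕ := fun i => (l i * ((ω i.1)⁻¹ : (ZMod n)ˣ)).val
      set P := ∏ i, r i ^ μ i with hP
      have hPF : P ∈ F := by
        rw [← InfiniteGalois.fixedField_fixingSubgroup F]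
        rintro ⟨σ, hσ⟩
        have hres1 : res σ = 1 := AlgEquiv.ext fun x => Subtype.ext ((hres σ x).trans (hσ x))
        have hone : χ (V σ) = 1 := by
          have hVU : V σ ∈ U := ⟨σ, SemidirectProduct.ext rfl (by
            show π (res σ) = 1
            rw [hres1, map_one])⟩
          show ((χ₀ (V σ : A ⧸ U)) : Qb) = 1
          rw [(QuotientGroup.eq_one_iff _).2 hVU, map_one, Units.val_one]
        show σ P = P
        have hkey : χ (V σ) = ∏ i, ε (z σ i) ^ μ i := by
          rw [map_prod]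
          refine Finset.prod_congr rfl fun i _ => ?_
          rw [map_pow, hl, ← hε_mul, ← hε_mul]
          congr 1
          simp only [v, hres1, inv_one, one_mul]
          ring
        rw [hP, map_prod]
        simp only [map_pow, hzspec, hres1, one_mul, mul_pow, Prod.mk.eta]
        rw [Finset.prod_mul_distrib, ← hkey, hone, mul_one]
      have hdvd := hind n (fun τ j => μ (τ, j)) ⟨P, hPF⟩ (Subtype.ext (by
        show F.val (∏ τ, ∏ j, τ (b j) ^ μ (τ, j)) = F.val (⟨P, hPF⟩ ^ n)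
        simp only [map_prod, map_pow, IntermediateField.coe_val]
        rw [← Fintype.prod_prod_type', hP, ← Finset.prod_pow]
        refine Finset.prod_congr rfl fun i _ => ?_
        rw [← pow_mul, mul_comm (μ (i.1, i.2)) n, pow_mul, hr]))
      have hl0 : ∀ i, l i = 0 := fun i => by
        have h : μ i = 0 := Nat.eq_zero_of_dvd_of_lt (hdvd i.1 i.2) (ZMod.val_lt _)
        rw [ZMod.val_eq_zero, Units.mul_left_eq_zero] at h
        exact h
      obtain ⟨j, hj⟩ := hel a
      have h1 : χ (c (1, j)) = 1 := by rw [hl, hl0, hε_one]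
      refine hχ₀ (Units.ext ?_)
      show χ a = 1
      simpa [c, hj] using h1
    rintro ⟨a, g⟩
    obtain ⟨τ, rfl⟩ := hπ g
    obtain ⟨σ, rfl⟩ := AlgEquiv.restrictNormalHom_surjective (F := ℚ) (K₁ := F) Qb τ
    have h1 : ∀ x : A, SemidirectProduct.inl x ∈ Ψ.range := fun x => by
      rw [← Subgroup.mem_comap, hU]
      exact Subgroup.mem_top x
    have h2 : (⟨a, π (res σ)⟩ : A ⋊[φ] G) = SemidirectProduct.inl (a * (V σ)⁻¹) * Ψ σ :=
      SemidirectProduct.ext (by simp [Ψ]) (by simp [Ψ])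
    show (⟨a, π (res σ)⟩ : A ⋊[φ] G) ∈ Set.range Ψ
    rw [h2]
    exact mul_mem (h1 _) ⟨σ, rfl⟩
  · -- the kernel is open
    have : FiniteDimensional ℚ (IntermediateField.adjoin ℚ (Set.range r)) := by
      have := (Set.finite_range r).to_subtype
      exact IntermediateField.finiteDimensional_adjoin fun x _ => Algebra.IsIntegral.isIntegral x
    refine Subgroup.isOpen_mono
      (H₁ := (F ⊔ IntermediateField.adjoin ℚ (Set.range r)).fixingSubgroup)
      (fun σ hσ => ?_) (IntermediateField.fixingSubgroup_isOpen _)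
    have hfix := (IntermediateField.mem_fixingSubgroup_iff _ σ).1 hσ
    have hres1 : res σ = 1 := AlgEquiv.ext fun x => Subtype.ext ((hres σ x).trans
      (hfix x (SetLike.le_def.1 le_sup_left x.2)))
    have hz0 : ∀ i, z σ i = 0 := fun i => by
      refine hε_inj _ _ (mul_left_cancel₀ (hr0 i) ?_)
      have h := hzspec σ i
      rw [hres1, one_mul, Prod.mk.eta,
        hfix (r i) (SetLike.le_def.1 le_sup_right
          (IntermediateField.subset_adjoin ℚ _ ⟨i, rfl⟩))] at h
      rw [← h, hε_one, mul_one]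
    rw [MonoidHom.mem_ker]
    refine SemidirectProduct.ext ?_ ?_
    · show V σ = 1
      exact Finset.prod_eq_one fun i _ => by simp [v, hz0]
    · show π (res σ) = 1
      rw [hres1, map_one]

/-- **Split embedding problems with abelian kernel are solvable over `ℚ`.** -/
theorem exists_embedding {A G : Type*} [CommGroup A] [Finite A] [Group G] (φ : G →* MulAut A)
    (ρ : GQ →* G) (hρ : Function.Surjective ρ) (hopen : IsOpen (ρ.ker : Set GQ)) :
    ∃ Ψ : GQ →* A ⋊[φ] G, Function.Surjective Ψ ∧ IsOpen (Ψ.ker : Set GQ) ∧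
      ∀ σ : GQ, (Ψ σ).right = ρ σ := by
  classical
  obtain ⟨L, hLfin, hLgal, -, hLρ⟩ := FA.AbelianInverseGalois.exists_field_of_surjective ρ hρ hopen
  set n := Nat.card A with hn
  have : NeZero n := ⟨Nat.card_pos.ne'⟩
  set p : Polynomial ℚ := Polynomial.X ^ n - 1
  set C := IntermediateField.adjoin ℚ (p.rootSet Qb)
  have : Polynomial.IsSplittingField ℚ C p :=
    IntermediateField.adjoin_rootSet_isSplittingField (IsAlgClosed.splits _)
  have : FiniteDimensional ℚ C := Polynomial.IsSplittingField.finiteDimensional C p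
  have : Normal ℚ C := Normal.of_isSplittingField p
  have hsup := @IntermediateField.normal_sup ℚ Qb _ _ _ L C
    (by convert hLgal.to_normal; exact Subsingleton.elim _ _)
    (by convert (inferInstance : Normal ℚ C); exact Subsingleton.elim _ _)
  have : Normal ℚ (L ⊔ C : IntermediateField ℚ Qb) := by
    convert hsup
    exact Subsingleton.elim _ _
  have : IsGalois ℚ (L ⊔ C : IntermediateField ℚ Qb) := { }
  obtain ⟨ζ, hζ⟩ := HasEnoughRootsOfUnity.exists_primitiveRoot Qb n
  have hζmem : ζ ∈ (L ⊔ C : IntermediateField ℚ Qb) := SetLike.le_def.1 le_sup_right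
    (IntermediateField.subset_adjoin ℚ _ (Polynomial.mem_rootSet.2
      ⟨Polynomial.X_pow_sub_C_ne_zero (NeZero.pos n) 1, by simp [p, hζ.pow_eq_one]⟩))
  set F := (L ⊔ C : IntermediateField ℚ Qb)
  have hsurj : Function.Surjective (AlgEquiv.restrictNormalHom F : GQ →* (F ≃ₐ[ℚ] F)) := by
    have : IsGalois ℚ Qb := FA.Local.isGalois_qbar
    exact AlgEquiv.restrictNormalHom_surjective (F := ℚ) (K₁ := F) Qb
  have hker : (AlgEquiv.restrictNormalHom F : GQ →* (F ≃ₐ[ℚ] F)).ker ≤ ρ.ker := by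
    intro σ hσ
    refine (hLρ σ).1 fun x hx => ?_
    have h := AlgEquiv.restrictNormal_commutes σ F ⟨x, SetLike.le_def.1 le_sup_left hx⟩
    rw [show σ.restrictNormal F = 1 from hσ] at h
    exact h.symm
  obtain ⟨Ψ, h1, h2, h3⟩ := exists_embedding_of_roots (F := F) (n := n) (ζ := ⟨ζ, hζmem⟩)
    (IsPrimitiveRoot.of_map_of_injective (f := F.val) hζ Subtype.val_injective)
    (fun a => pow_card_eq_one') φ
    ((AlgEquiv.restrictNormalHom F : GQ →* (F ≃ₐ[ℚ] F)).liftOfSurjective hsurj ⟨ρ, hker⟩) (by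
      intro g
      obtain ⟨σ, rfl⟩ := hρ g
      exact ⟨AlgEquiv.restrictNormalHom F σ,
        MonoidHom.liftOfRightInverse_comp_apply _ _ _ ⟨ρ, hker⟩ σ⟩)
  refine ⟨Ψ, h1, h2, fun σ => (h3 σ).trans ?_⟩
  exact MonoidHom.liftOfRightInverse_comp_apply _ _ _ ⟨ρ, hker⟩ σ

end Fermat.Agent.SemidirectGalois
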