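import Mathlib
import Fermat.Agent.SemidirectGalois.Embedding
import Fermat.Agent.SelmerPolynomial.Galois

/-!
# Groups realised over `ℚ` from semidirect products with abelian kernel

Abelian normal subgroups with a realised supplement, abelian-by-cyclic groups, groups with cyclic
Sylow subgroups, groups of order `p ^ 3`, wreath products of abelian groups by symmetric groups.
-/

namespace Fermat.Agent.SemidirectGalois

local notation "Qb" => AlgebraicClosure ℚ
local notation "GQ" => AlgebraicClosure ℚ ≃ₐ[ℚ] AlgebraicClosure ℚ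

/-- `G` is the Galois group of a finite extension of `ℚ` inside `ℚ̄`. -/
def RealisedOverRat (G : Type*) [Group G] : Prop :=
  ∃ ρ : GQ →* G, Function.Surjective ρ ∧ IsOpen (ρ.ker : Set GQ)

variable {G H : Type*} [Group G] [Group H]

lemma RealisedOverRat.of_surjective (h : RealisedOverRat G) (f : G →* H)
    (hf : Function.Surjective f) : RealisedOverRat H := by
  obtain ⟨ρ, hρ, hopen⟩ := h
  refine ⟨f.comp ρ, hf.comp hρ, Subgroup.isOpen_mono (fun σ hσ => ?_) hopen⟩
  rw [MonoidHom.mem_ker] at hσ ⊢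
  rw [MonoidHom.comp_apply, hσ, map_one]

lemma RealisedOverRat.exists_field (h : RealisedOverRat G) :
    ∃ K : IntermediateField ℚ Qb, FiniteDimensional ℚ K ∧ IsGalois ℚ K ∧
      Nonempty ((K ≃ₐ[ℚ] K) ≃* G) := by
  obtain ⟨ρ, hρ, hopen⟩ := h
  obtain ⟨K, h1, h2, h3, -⟩ := FA.AbelianInverseGalois.exists_field_of_surjective ρ hρ hopen
  exact ⟨K, h1, h2, h3⟩

lemma realisedOverRat_of_field {K : IntermediateField ℚ Qb} [FiniteDimensional ℚ K] [IsGalois ℚ K]
    (e : (K ≃ₐ[ℚ] K) ≃* G) : RealisedOverRat G := by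
  have : IsGalois ℚ Qb := FA.Local.isGalois_qbar
  refine ⟨e.toMonoidHom.comp (AlgEquiv.restrictNormalHom K),
    e.surjective.comp (AlgEquiv.restrictNormalHom_surjective (F := ℚ) (K₁ := K) Qb),
    Subgroup.isOpen_mono (H₁ := K.fixingSubgroup) (fun σ hσ => ?_)
      (IntermediateField.fixingSubgroup_isOpen _)⟩
  have h : AlgEquiv.restrictNormalHom K σ = 1 := AlgEquiv.ext fun x => Subtype.ext
    ((AlgEquiv.restrictNormal_commutes σ K x).trans
      ((IntermediateField.mem_fixingSubgroup_iff _ σ).1 hσ x x.2))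
  rw [MonoidHom.mem_ker, MonoidHom.comp_apply, h, map_one]

theorem realisedOverRat_commGroup (A : Type*) [CommGroup A] [Finite A] : RealisedOverRat A := by
  obtain ⟨K, hK, hgal, ⟨e⟩, -⟩ := FA.Summary.exists_galois_abelian A ∅
  exact realisedOverRat_of_field e

/-- **Semidirect products with abelian kernel.** -/
theorem RealisedOverRat.semidirect (h : RealisedOverRat G) {A : Type*} [CommGroup A] [Finite A]
    (φ : G →* MulAut A) : RealisedOverRat (A ⋊[φ] G) := by
  obtain ⟨ρ, hρ, hopen⟩ := h
  obtain ⟨Ψ, h1, h2, -⟩ := exists_embedding φ ρ hρ hopen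
  exact ⟨Ψ, h1, h2⟩

/-- A group is realised if it is the product of an abelian normal subgroup and a realised
subgroup. -/
theorem realisedOverRat_of_sup_eq_top [Finite G] (A B : Subgroup G) [A.Normal]
    (hA : ∀ a ∈ A, ∀ b ∈ A, a * b = b * a) (hB : RealisedOverRat B) (htop : A ⊔ B = ⊤) :
    RealisedOverRat G := by
  let _ : CommGroup A :=
    { A.toGroup with mul_comm := fun a b => Subtype.ext (hA a a.2 b b.2) }
  let φ : B →* MulAut A := MulAut.conjNormal.comp B.subtype
  refine (hB.semidirect φ).of_surjective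
    (SemidirectProduct.lift A.subtype B.subtype fun g => MonoidHom.ext fun a => ?_) ?_
  · simp [φ, MulAut.conjNormal_apply]
  · rw [← MonoidHom.range_eq_top, eq_top_iff, ← htop]
    refine sup_le (fun a ha => ⟨SemidirectProduct.inl ⟨a, ha⟩, ?_⟩)
      (fun b hb => ⟨SemidirectProduct.inr ⟨b, hb⟩, ?_⟩) <;> simp

/-- Abelian-by-cyclic groups are realised. -/
theorem realisedOverRat_of_cyclic_quotient [Finite G] (A : Subgroup G) [A.Normal]
    (hA : ∀ a ∈ A, ∀ b ∈ A, a * b = b * a) [IsCyclic (G ⧸ A)] : RealisedOverRat G := by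
  obtain ⟨c, hc⟩ := IsCyclic.exists_generator (α := G ⧸ A)
  obtain ⟨g, rfl⟩ := QuotientGroup.mk_surjective c
  let _ : CommGroup (Subgroup.zpowers g) :=
    { (Subgroup.zpowers g).toGroup with
      mul_comm := fun ⟨_, i, hi⟩ ⟨_, j, hj⟩ =>
        Subtype.ext (by simp [← hi, ← hj, zpow_mul_comm]) }
  refine realisedOverRat_of_sup_eq_top A (Subgroup.zpowers g) hA (realisedOverRat_commGroup _)
    (eq_top_iff.2 fun x _ => ?_)
  obtain ⟨k, hk⟩ := Subgroup.mem_zpowers_iff.1 (hc (x : G ⧸ A))
  rw [← QuotientGroup.mk_zpow, eq_comm, QuotientGroup.eq] at hk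
  have h : (g ^ k)⁻¹ * x ∈ A := by
    have := A.inv_mem hk
    rwa [mul_inv_rev, inv_inv] at this
  rw [← mul_inv_cancel_left (g ^ k) x]
  exact mul_mem (Subgroup.mem_sup_right ⟨k, rfl⟩) (Subgroup.mem_sup_left h)

/-- Finite groups with all Sylow subgroups cyclic are realised. -/
theorem realisedOverRat_of_isZGroup [Finite G] [IsZGroup G] : RealisedOverRat G := by
  have : IsCyclic (commutator G) := IsZGroup.isCyclic_commutator G
  have : IsCyclic (G ⧸ commutator G) := IsZGroup.isCyclic_abelianization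
  refine realisedOverRat_of_cyclic_quotient (commutator G) fun a ha b hb => ?_
  exact congrArg Subtype.val ((IsCyclic.commGroup (α := commutator G)).mul_comm ⟨a, ha⟩ ⟨b, hb⟩)

/-- Groups of order `p ^ 3` are realised. -/
theorem realisedOverRat_of_card_eq_pow_three {p : ℕ} (hp : p.Prime) (hG : Nat.card G = p ^ 3) :
    RealisedOverRat G := by
  have : Fact p.Prime := ⟨hp⟩
  have : Finite G := Nat.finite_of_card_ne_zero (hG ▸ pow_ne_zero 3 hp.ne_zero)
  obtain ⟨K, hK⟩ := Sylow.exists_subgroup_card_pow_prime (G := G) p (n := 2)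
    (hG ▸ pow_dvd_pow p (by norm_num))
  have hidx : K.index = p := by
    have h := K.index_mul_card
    rw [hK, hG] at h
    exact mul_right_cancel₀ (pow_ne_zero 2 hp.ne_zero) (h.trans (by ring))
  have hn : K.Normal := Subgroup.normal_of_index_eq_minFac_card (by
    rw [hidx, hG, Nat.pow_minFac three_ne_zero, hp.minFac_eq])
  have : IsCyclic (G ⧸ K) := isCyclic_of_prime_card (p := p) (by
    rw [← Subgroup.index_eq_card, hidx])
  have hcomm := IsPGroup.isMulCommutative_of_card_eq_prime_sq hK
  exact realisedOverRat_of_cyclic_quotient K fun a ha b hb =>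
    congrArg Subtype.val (hcomm.is_comm.comm ⟨a, ha⟩ ⟨b, hb⟩)

/-- Symmetric groups are realised, by Osada's theorem. -/
theorem realisedOverRat_perm (α : Type*) [Finite α] : RealisedOverRat (Equiv.Perm α) := by
  classical
  obtain ⟨n, ⟨e⟩⟩ := Finite.exists_equiv_fin α
  refine RealisedOverRat.of_surjective (G := Equiv.Perm (Fin n)) ?_
    e.symm.permCongrHom.toMonoidHom e.symm.permCongrHom.surjective
  by_cases hn : n < 2
  · have : Subsingleton (Fin n) := Fin.subsingleton_iff_le_one.2 (by omega)
    exact ⟨1, fun x => ⟨1, Subsingleton.elim _ _⟩, by rw [MonoidHom.ker_one]; exact isOpen_univ⟩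
  obtain ⟨e'⟩ := SelmerPolynomial.nonempty_gal_selmer (n := n) (by omega)
  set f := (Polynomial.X ^ n - Polynomial.X - 1 : Polynomial ℚ)
  have : IsGalois ℚ Qb := FA.Local.isGalois_qbar
  have : Fact ((f.map (algebraMap ℚ Qb)).Splits) := ⟨IsAlgClosed.splits _⟩
  have : FiniteDimensional ℚ (IntermediateField.adjoin ℚ (f.rootSet Qb)) := by
    have := (Polynomial.rootSet_finite f Qb).to_subtype
    exact IntermediateField.finiteDimensional_adjoin fun x _ => Algebra.IsIntegral.isIntegral x
  refine ⟨e'.toMonoidHom.comp (Polynomial.Gal.restrict f Qb),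
    e'.surjective.comp (Polynomial.Gal.restrict_surjective f Qb),
    Subgroup.isOpen_mono (H₁ := (IntermediateField.adjoin ℚ (f.rootSet Qb)).fixingSubgroup)
      (fun σ hσ => ?_) (IntermediateField.fixingSubgroup_isOpen _)⟩
  have h : Polynomial.Gal.restrict f Qb σ = 1 :=
    Polynomial.Gal.galActionHom_injective f Qb (Equiv.ext fun x => Subtype.ext (by
      rw [Polynomial.Gal.galActionHom_restrict, map_one]
      exact (IntermediateField.mem_fixingSubgroup_iff _ σ).1 hσ x
        (IntermediateField.subset_adjoin ℚ _ x.2)))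
  rw [MonoidHom.mem_ker, MonoidHom.comp_apply, h, map_one]

/-- Wreath products of finite abelian groups by symmetric groups are realised. -/
theorem realisedOverRat_wreath (A : Type*) [CommGroup A] [Finite A] (α : Type*) [Finite α] :
    RealisedOverRat ((α → A) ⋊[(mulAutArrow : Equiv.Perm α →* MulAut (α → A))] Equiv.Perm α) :=
  (realisedOverRat_perm α).semidirect _

end Fermat.Agent.SemidirectGalois
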