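import Mathlib
import Fermat.Agent.SemidirectGalois.Realisable

/-!
# Semiabelian groups and groups of small order

Groups of order `p ^ 4`, `p ^ 2 q`, and less than `32` other than `24` are realised over `ℚ`.
-/

namespace Fermat.Agent.SemidirectGalois

open Subgroup

variable {G : Type*} [Group G]

/-- Adjoining a commuting element to an abelian subgroup keeps it abelian. -/
lemma commute_adjoin (A : Subgroup G) (hA : ∀ a ∈ A, ∀ b ∈ A, a * b = b * a) {y : G}
    (hy : ∀ a ∈ A, a * y = y * a) :
    ∀ a ∈ closure (insert y (A : Set G)), ∀ b ∈ closure (insert y (A : Set G)), a * b = b * a := by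
  have h1 : ∀ a ∈ insert y (A : Set G), ∀ b ∈ insert y (A : Set G), a * b = b * a := by
    rintro a (rfl | ha) b (rfl | hb)
    · rfl
    · exact (hy b hb).symm
    · exact hy a ha
    · exact hA a ha b hb
  have h2 : closure (insert y (A : Set G)) ≤ centralizer (insert y (A : Set G)) :=
    (closure_le _).2 fun a ha => mem_centralizer_iff.2 fun b hb => h1 b hb a ha
  have h3 : insert y (A : Set G) ⊆ centralizer (closure (insert y (A : Set G)) : Set G) :=
    fun b hb => mem_centralizer_iff.2 fun a ha => (mem_centralizer_iff.1 (h2 ha) b hb).symm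
  intro a ha b hb
  exact mem_centralizer_iff.1 ((closure_le _).2 h3 hb) a ha

/-- In a group of order `p ^ m` a larger abelian subgroup through an outside commuting element. -/
lemma exists_larger {p : ℕ} (hp : p.Prime) {m : ℕ} (hG : Nat.card G = p ^ m) (A : Subgroup G)
    (hA : ∀ a ∈ A, ∀ b ∈ A, a * b = b * a) {y : G} (hy : ∀ a ∈ A, a * y = y * a) (hyA : y ∉ A)
    {k : ℕ} (hk : p ^ k ≤ Nat.card A) :
    ∃ B : Subgroup G, (∀ a ∈ B, ∀ b ∈ B, a * b = b * a) ∧ p ^ (k + 1) ≤ Nat.card B := by
  have : Finite G := Nat.finite_of_card_ne_zero (hG ▸ pow_ne_zero m hp.ne_zero)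
  refine ⟨_, commute_adjoin A hA hy, ?_⟩
  set B := closure (insert y (A : Set G))
  have hlt : A < B := lt_of_le_of_ne (fun a ha => subset_closure (Set.mem_insert_of_mem y ha))
    fun h => hyA (h ▸ subset_closure (Set.mem_insert y _))
  obtain ⟨i, -, hi⟩ := (Nat.dvd_prime_pow hp).1 (hG ▸ B.card_subgroup_dvd_card)
  have hlt' : Nat.card A < Nat.card B :=
    Set.Finite.card_lt_card (Set.toFinite _) (SetLike.coe_ssubset_coe.2 hlt)
  rw [hi] at hlt' ⊢
  refine Nat.pow_le_pow_right hp.pos ?_
  have := (Nat.pow_lt_pow_iff_right hp.one_lt).1 (hk.trans_lt hlt')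
  omega

/-- Finite abelian groups, given by an unbundled commutativity proof, are realised. -/
lemma realisedOverRat_of_comm [Finite G] (h : ∀ a b : G, a * b = b * a) : RealisedOverRat G := by
  let _ : CommGroup G := { ‹Group G› with mul_comm := h }
  exact realisedOverRat_commGroup G

/-- A group of order `p ^ 4` with an abelian subgroup of order at least `p ^ 3` is realised. -/
lemma realisedOverRat_of_large_abelian {p : ℕ} (hp : p.Prime) (hG : Nat.card G = p ^ 4)
    (A : Subgroup G) (hA : ∀ a ∈ A, ∀ b ∈ A, a * b = b * a) (h : p ^ 3 ≤ Nat.card A) :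
    RealisedOverRat G := by
  have : Fact p.Prime := ⟨hp⟩
  have : Finite G := Nat.finite_of_card_ne_zero (hG ▸ pow_ne_zero 4 hp.ne_zero)
  have hidx := A.index_mul_card
  rw [hG] at hidx
  obtain ⟨i, hi, hA'⟩ := (Nat.dvd_prime_pow hp).1 (hG ▸ A.card_subgroup_dvd_card)
  rw [hA'] at h hidx
  have h3 := (Nat.pow_le_pow_iff_right hp.one_lt).1 h
  rcases eq_or_lt_of_le hi with rfl | hi4
  · obtain rfl : A = ⊤ := eq_top_of_card_eq A (hA'.trans hG.symm)
    exact realisedOverRat_of_comm fun a b => hA a (mem_top a) b (mem_top b)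
  · obtain rfl : i = 3 := by omega
    have hidx' : A.index = p :=
      mul_right_cancel₀ (pow_ne_zero 3 hp.ne_zero) (hidx.trans (by ring))
    have : A.Normal := normal_of_index_eq_minFac_card (by
      rw [hidx', hG, Nat.pow_minFac four_ne_zero, hp.minFac_eq])
    have : IsCyclic (G ⧸ A) := isCyclic_of_prime_card (p := p) (by rw [← index_eq_card, hidx'])
    exact realisedOverRat_of_cyclic_quotient A hA

/-- Groups of order `p ^ 4` are realised. -/
theorem realisedOverRat_of_card_eq_pow_four {p : ℕ} (hp : p.Prime) (hG : Nat.card G = p ^ 4) :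
    RealisedOverRat G := by
  have : Fact p.Prime := ⟨hp⟩
  have : Finite G := Nat.finite_of_card_ne_zero (hG ▸ pow_ne_zero 4 hp.ne_zero)
  have hPG : IsPGroup p G := IsPGroup.of_card hG
  have : Nontrivial G :=
    Finite.one_lt_card_iff_nontrivial.1 (hG ▸ Nat.one_lt_pow four_ne_zero hp.one_lt)
  set Z := center G
  have hZ : ∀ a ∈ Z, ∀ b ∈ Z, a * b = b * a := fun a ha b _ => (mem_center_iff.1 ha b).symm
  obtain ⟨j, hj, hZc⟩ := (Nat.dvd_prime_pow hp).1 (hG ▸ Z.card_subgroup_dvd_card)
  rcases Nat.lt_or_ge j 3 with hj3 | hj3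
  swap
  · exact realisedOverRat_of_large_abelian hp hG Z hZ (hZc ▸ Nat.pow_le_pow_right hp.pos hj3)
  have hZtop : Z ≠ ⊤ := fun h => by
    have h1 := hZc
    rw [h, card_top, hG] at h1
    have := Nat.pow_right_injective hp.two_le h1
    omega
  have hj1 : 1 ≤ j := by
    by_contra h0
    have := hPG.center_nontrivial
    have h1 := Finite.one_lt_card_iff_nontrivial.2 this
    rw [hZc, show j = 0 by omega, pow_zero] at h1
    omega
  by_cases hj2 : j = 2
  · obtain ⟨x, hx⟩ : ∃ x, x ∉ Z := by
      by_contra h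
      push Not at h
      exact hZtop (eq_top_iff.2 fun x _ => h x)
    obtain ⟨B, hB, hBc⟩ := exists_larger hp hG Z hZ (fun a ha => (mem_center_iff.1 ha x).symm) hx
      (k := 2) (by rw [hZc, hj2])
    exact realisedOverRat_of_large_abelian hp hG B hB hBc
  obtain rfl : j = 1 := by omega
  -- an element central modulo the centre
  have : Nontrivial (G ⧸ Z) := QuotientGroup.nontrivial_iff.2 hZtop
  have := (hPG.to_quotient Z).center_nontrivial
  obtain ⟨⟨mbar, hmbar⟩, hne⟩ := exists_ne (1 : center (G ⧸ Z))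
  obtain ⟨m, rfl⟩ := QuotientGroup.mk_surjective mbar
  have hm : m ∉ Z := fun h => hne (Subtype.ext ((QuotientGroup.eq_one_iff m).2 h))
  have hcomm : ∀ g, g * m * g⁻¹ * m⁻¹ ∈ Z := fun g => by
    rw [← QuotientGroup.eq_one_iff, QuotientGroup.mk_mul, QuotientGroup.mk_mul,
      QuotientGroup.mk_mul,
      QuotientGroup.mk_inv, QuotientGroup.mk_inv, mem_center_iff.1 hmbar (g : G ⧸ Z)]
    group
  let κ : G →* Z := MonoidHom.mk' (fun g => ⟨g * m * g⁻¹ * m⁻¹, hcomm g⟩) fun g h => Subtype.ext (by
    have hc := mem_center_iff.1 (hcomm h) g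
    show g * h * m * (g * h)⁻¹ * m⁻¹ = g * m * g⁻¹ * m⁻¹ * (h * m * h⁻¹ * m⁻¹)
    calc g * h * m * (g * h)⁻¹ * m⁻¹ = g * (h * m * h⁻¹ * m⁻¹) * (m * g⁻¹ * m⁻¹) := by group
      _ = (h * m * h⁻¹ * m⁻¹) * g * (m * g⁻¹ * m⁻¹) := by rw [hc]
      _ = (h * m * h⁻¹ * m⁻¹) * (g * m * g⁻¹ * m⁻¹) := by group
      _ = _ := hZ _ (hcomm h) _ (hcomm g))
  have hker : p ^ 3 ≤ Nat.card κ.ker := by
    have h1 := κ.ker.index_mul_card
    rw [index_ker, hG] at h1
    have h2 : Nat.card κ.range ≤ p := (Nat.card_le_card_of_injective _ Subtype.val_injective).trans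
      (by rw [hZc, pow_one])
    refine le_of_mul_le_mul_left ?_ hp.pos
    calc p * p ^ 3 = Nat.card κ.range * Nat.card κ.ker := by rw [h1]; ring
      _ ≤ p * Nat.card κ.ker := Nat.mul_le_mul_right _ h2
  have hfix : ∀ g ∈ κ.ker, g * m = m * g := fun g hg => by
    have h : g * m * g⁻¹ * m⁻¹ = 1 := congrArg Subtype.val hg
    rwa [mul_inv_eq_one, mul_inv_eq_iff_eq_mul] at h
  set S := closure (insert m (Z : Set G)) with hS
  have hSZ : Z ≤ S := fun a ha => subset_closure (Set.mem_insert_of_mem m ha)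
  have hS2 : p ^ 2 ≤ Nat.card S := by
    obtain ⟨i, -, hi⟩ := (Nat.dvd_prime_pow hp).1 (hG ▸ S.card_subgroup_dvd_card)
    have hlt : Z < S := lt_of_le_of_ne hSZ fun h => hm (h ▸ subset_closure (Set.mem_insert m _))
    have := Set.Finite.card_lt_card (Set.toFinite _) (SetLike.coe_ssubset_coe.2 hlt)
    rw [show Nat.card (Z : Set G) = p ^ 1 from hZc,
      show Nat.card (S : Set G) = p ^ i from hi] at this
    rw [hi]
    exact Nat.pow_le_pow_right hp.pos (by
      have := (Nat.pow_lt_pow_iff_right hp.one_lt).1 this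
      omega)
  have hScomm := commute_adjoin Z hZ (y := m) fun a ha => (mem_center_iff.1 ha m).symm
  by_cases hsub : κ.ker ≤ S
  · exact realisedOverRat_of_large_abelian hp hG S hScomm
      (hker.trans (Subgroup.card_le_of_le hsub))
  obtain ⟨y, hy, hyS⟩ := SetLike.not_le_iff_exists.1 hsub
  have hSy : ∀ a ∈ S, a * y = y * a := fun a ha => by
    have hle : S ≤ centralizer {y} := (closure_le _).2 (by
      rintro a (rfl | ha)
      · exact mem_centralizer_singleton_iff.2 (hfix y hy).symm
      · exact mem_centralizer_singleton_iff.2 (mem_center_iff.1 ha y).symm)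
    exact mem_centralizer_singleton_iff.1 (hle ha)
  obtain ⟨B', hB', hBc'⟩ := exists_larger hp hG S hScomm hSy hyS hS2
  exact realisedOverRat_of_large_abelian hp hG B' hB' hBc'

/-- Groups of order `p ^ 2 q` are realised. -/
theorem realisedOverRat_of_card_eq_sq_mul {p q : ℕ} (hp : p.Prime) (hq : q.Prime) (hpq : p ≠ q)
    (hG : Nat.card G = p ^ 2 * q) : RealisedOverRat G := by
  have : Fact p.Prime := ⟨hp⟩
  have : Fact q.Prime := ⟨hq⟩
  have : Finite G :=
    Nat.finite_of_card_ne_zero (hG ▸ mul_ne_zero (pow_ne_zero 2 hp.ne_zero) hq.ne_zero)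
  obtain ⟨P, hP⟩ := Sylow.exists_subgroup_card_pow_prime (G := G) p (n := 2)
    (hG ▸ dvd_mul_right _ _)
  have hPcomm : ∀ a ∈ P, ∀ b ∈ P, a * b = b * a := fun a ha b hb =>
    congrArg Subtype.val ((IsPGroup.isMulCommutative_of_card_eq_prime_sq hP).is_comm.comm
      ⟨a, ha⟩ ⟨b, hb⟩)
  have hPidx : P.index = q := by
    have h := P.card_mul_index
    rw [hP, hG] at h
    exact mul_left_cancel₀ (pow_ne_zero 2 hp.ne_zero) h
  have hnormalP : P.Normal → RealisedOverRat G := fun hn => by
    have : IsCyclic (G ⧸ P) := isCyclic_of_prime_card (p := q) (by rw [← index_eq_card, hPidx])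
    exact realisedOverRat_of_cyclic_quotient P hPcomm
  rcases lt_or_gt_of_ne hpq with hlt | hgt
  swap
  · refine hnormalP (normal_of_index_eq_minFac_card ?_)
    rw [hPidx, hG]
    refine le_antisymm ?_ (Nat.minFac_le_of_dvd hq.two_le (dvd_mul_left _ _))
    have h1 := Nat.minFac_prime (n := p ^ 2 * q)
      (by nlinarith [hp.two_le, hq.two_le, Nat.one_le_pow 2 p hp.pos])
    rcases h1.dvd_mul.1 (Nat.minFac_dvd (p ^ 2 * q)) with h | h
    · rw [(Nat.prime_dvd_prime_iff_eq h1 hp).1 (h1.dvd_of_dvd_pow h)]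
      exact hgt.le
    · exact ((Nat.prime_dvd_prime_iff_eq h1 hq).1 h).ge
  have hfac : (Nat.card G).factorization q = 1 := by
    rw [hG, Nat.factorization_mul (pow_ne_zero 2 hp.ne_zero) hq.ne_zero, Nat.factorization_pow,
      Finsupp.add_apply, Finsupp.smul_apply, hp.factorization, hq.factorization]
    simp [hpq]
  obtain ⟨Q, hQ⟩ := Sylow.exists_subgroup_card_pow_prime (G := G) q (n := 1)
    (by rw [pow_one, hG]; exact dvd_mul_left _ _)
  rw [pow_one] at hQ
  let SQ : Sylow q G := Sylow.ofCard Q (by rw [hfac, pow_one, hQ])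
  have hQidx : Q.index = p ^ 2 := by
    have h := Q.card_mul_index
    rw [hQ, hG, mul_comm (p ^ 2)] at h
    exact mul_left_cancel₀ hq.ne_zero h
  have : IsCyclic Q := isCyclic_of_prime_card hQ
  have hQcomm : ∀ a ∈ Q, ∀ b ∈ Q, a * b = b * a := fun a ha b hb =>
    congrArg Subtype.val ((IsCyclic.commGroup (α := Q)).mul_comm ⟨a, ha⟩ ⟨b, hb⟩)
  have hdvd : Nat.card (Sylow q G) ∣ p ^ 2 := hQidx ▸ SQ.card_dvd_index
  obtain ⟨i, hi, hcard⟩ := (Nat.dvd_prime_pow hp).1 hdvd
  have hmod := card_sylow_modEq_one q G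
  rw [hcard] at hmod
  interval_cases i
  · have : Subsingleton (Sylow q G) := (Nat.card_eq_one_iff_unique.1 (hcard.trans (pow_zero p))).1
    have : Q.Normal := Sylow.normal_of_subsingleton SQ
    refine realisedOverRat_of_sup_eq_top Q P hQcomm ?_ ?_
    · let _ : CommGroup P :=
        { P.toGroup with mul_comm := fun a b => Subtype.ext (hPcomm a a.2 b b.2) }
      exact realisedOverRat_commGroup P
    · refine eq_top_of_card_eq _ (Nat.dvd_antisymm (card_subgroup_dvd_card _) ?_)
      rw [hG]
      refine ((Nat.coprime_primes hp hq).2 hpq |>.pow_left 2).mul_dvd_of_dvd_of_dvd ?_ ?_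
      · exact hP ▸ card_dvd_of_le le_sup_right
      · exact hQ ▸ card_dvd_of_le le_sup_left
  · rw [pow_one] at hmod
    have h := Nat.ModEq.eq_of_lt_of_lt hmod hlt hq.one_lt
    have := hp.one_lt
    omega
  · have hN : normalizer (SQ : Set G) = Q := by
      have h := Sylow.card_eq_index_normalizer SQ
      rw [hcard] at h
      have hle : Q ≤ normalizer (SQ : Set G) := Subgroup.le_normalizer (H := Q)
      refine (Subgroup.eq_of_le_of_card_ge hle ?_).symm
      have h1 := (normalizer (SQ : Set G)).card_mul_index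
      rw [← h, hG] at h1
      rw [hQ]
      exact le_of_eq (mul_right_cancel₀ (pow_ne_zero 2 hp.ne_zero) (h1.trans (by ring)))
    have hcent : normalizer (SQ : Set G) ≤ centralizer (SQ : Set G) := by
      rw [hN]
      exact fun a ha => mem_centralizer_iff.2 fun b hb => hQcomm b hb a ha
    have hK := MonoidHom.ker_transferSylow_isComplement' SQ hcent
    set K := (MonoidHom.transferSylow SQ hcent).ker
    have hKcard : Nat.card K = p ^ 2 := by
      have h := hK.card_mul_card
      rw [show Nat.card (SQ : Subgroup G) = q from hQ, hG] at h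
      exact mul_right_cancel₀ hq.ne_zero h
    have hKidx : K.index = q := by
      have h := K.card_mul_index
      rw [hKcard, hG] at h
      exact mul_left_cancel₀ (pow_ne_zero 2 hp.ne_zero) h
    have : IsCyclic (G ⧸ K) := isCyclic_of_prime_card (p := q) (by rw [← index_eq_card, hKidx])
    exact realisedOverRat_of_cyclic_quotient K fun a ha b hb =>
      congrArg Subtype.val ((IsPGroup.isMulCommutative_of_card_eq_prime_sq hKcard).is_comm.comm
        ⟨a, ha⟩ ⟨b, hb⟩)

/-- Groups of order less than `32`, other than `24`, are realised. -/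
theorem realisedOverRat_of_card_lt [Finite G] (h : Nat.card G < 32) (h24 : Nat.card G ≠ 24) :
    RealisedOverRat G := by
  have hsq : Squarefree (Nat.card G) → RealisedOverRat G := fun hs => by
    have := IsZGroup.of_squarefree hs
    exact realisedOverRat_of_isZGroup
  have hp2 : ∀ p : ℕ, p.Prime → Nat.card G = p ^ 2 → RealisedOverRat G := fun p hp hc => by
    have : Fact p.Prime := ⟨hp⟩
    exact realisedOverRat_of_comm fun a b =>
      (IsPGroup.isMulCommutative_of_card_eq_prime_sq hc).is_comm.comm a b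
  have hne : Nat.card G ≠ 0 := Nat.card_pos.ne'
  generalize hn : Nat.card G = n at h hne h24
  interval_cases n
  case «4» => exact hp2 2 Nat.prime_two hn
  case «9» => exact hp2 3 Nat.prime_three hn
  case «8» => exact realisedOverRat_of_card_eq_pow_three Nat.prime_two hn
  case «16» => exact realisedOverRat_of_card_eq_pow_four Nat.prime_two hn
  case «12» =>
    exact realisedOverRat_of_card_eq_sq_mul Nat.prime_two Nat.prime_three (by norm_num) hn
  case «18» =>
    exact realisedOverRat_of_card_eq_sq_mul Nat.prime_three Nat.prime_two (by norm_num) hn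
  case «20» =>
    exact realisedOverRat_of_card_eq_sq_mul Nat.prime_two Nat.prime_five (by norm_num) hn
  case «25» => exact hp2 5 Nat.prime_five hn
  case «27» => exact realisedOverRat_of_card_eq_pow_three Nat.prime_three hn
  case «28» =>
    exact realisedOverRat_of_card_eq_sq_mul Nat.prime_two (by norm_num : (7 : ℕ).Prime)
      (by norm_num) hn
  case «24» => exact absurd rfl h24
  case «0» => exact absurd rfl hne
  all_goals exact hsq (by rw [hn]; decide +kernel)

/-- Semiabelian groups are realised: built from the trivial group by abelian normal subgroups. -/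
theorem realisedOverRat_of_tower [Finite G] (k : ℕ) (A B : ℕ → Subgroup G) (h0 : B 0 = ⊥)
    (hk : B k = ⊤) (hsucc : ∀ i < k, B (i + 1) = A i ⊔ B i)
    (habel : ∀ i < k, ∀ a ∈ A i, ∀ b ∈ A i, a * b = b * a)
    (hnorm : ∀ i < k, ∀ b ∈ B i, ∀ a ∈ A i, b * a * b⁻¹ ∈ A i) : RealisedOverRat G := by
  suffices h : ∀ i ≤ k, RealisedOverRat (B i) by
    have h1 := h k le_rfl
    rw [hk] at h1
    exact h1.of_surjective (Subgroup.topEquiv (G := G)).toMonoidHom Subgroup.topEquiv.surjective
  intro i
  induction i with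
  | zero =>
    intro _
    rw [h0]
    exact realisedOverRat_of_comm fun a b => Subsingleton.elim _ _
  | succ i ih =>
    intro hi
    have hle : A i ≤ B (i + 1) := hsucc i hi ▸ le_sup_left
    have hle' : B i ≤ B (i + 1) := hsucc i hi ▸ le_sup_right
    have : ((A i).subgroupOf (B (i + 1))).Normal := by
      refine (normal_subgroupOf_iff_le_normalizer hle).2 ?_
      rw [hsucc i hi]
      refine sup_le Subgroup.le_normalizer fun b hb => mem_normalizer_iff.2 fun a =>
        ⟨fun ha => hnorm i hi b hb a ha, fun ha => ?_⟩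
      have h := hnorm i hi b⁻¹ (inv_mem hb) _ ha
      simpa [mul_assoc] using h
    refine realisedOverRat_of_sup_eq_top ((A i).subgroupOf (B (i + 1)))
      ((B i).subgroupOf (B (i + 1)))
      (fun a ha b hb =>
        Subtype.ext (habel i hi a.1 (mem_subgroupOf.1 ha) b.1 (mem_subgroupOf.1 hb)))
      ((ih (Nat.le_of_succ_le hi)).of_surjective (subgroupOfEquivOfLe hle').symm.toMonoidHom
        (subgroupOfEquivOfLe hle').symm.surjective) ?_
    rw [← subgroupOf_sup hle hle', ← hsucc i hi, subgroupOf_self]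

end Fermat.Agent.SemidirectGalois
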